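import Mathlib

/-!
# S52 / (B3): integrality + interpolation

If rational numbers `x n` with `3 x n ∈ ℤ` (for `n` in a finite set `T` of naturals contained in a
window of length `L`) are uniformly `ε`-close to the values of a real polynomial of degree `≤ d`
and `ε` is small enough, then they are the values of a rational polynomial of degree `≤ d`.
-/

namespace Fermat.Agent.S52.H712

open Polynomial Finset

/-- The integer product `∏_{j ∈ s.erase i} (i - j)`. -/
def nodeProd (s : Finset ℕ) (i : ℕ) : ℤ := ∏ j ∈ s.erase i, ((i : ℤ) - (j : ℤ))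

lemma nodeProd_ne_zero (s : Finset ℕ) (i : ℕ) : nodeProd s i ≠ 0 := by
  unfold nodeProd
  rw [Finset.prod_ne_zero_iff]
  intro j hj
  have : j ≠ i := (Finset.mem_erase.mp hj).1
  intro h
  apply this
  have : (i : ℤ) = j := by linarith
  exact_mod_cast this.symm

lemma nodeProd_dvd (s : Finset ℕ) (i : ℕ) (base L : ℕ) (hs : ∀ n ∈ s, base ≤ n ∧ n ≤ base + L)
    (hi : i ∈ s) : nodeProd s i ∣ ((L.factorial : ℤ)) ^ ((s.erase i).card) := by
  unfold nodeProd
  rw [← Finset.prod_const]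
  refine Finset.prod_dvd_prod_of_dvd _ _ (fun j hj => ?_)
  have hji : j ≠ i := (Finset.mem_erase.mp hj).1
  have hjs : j ∈ s := (Finset.mem_erase.mp hj).2
  obtain ⟨hi1, hi2⟩ := hs i hi
  obtain ⟨hj1, hj2⟩ := hs j hjs
  -- |i - j| is a positive natural ≤ L
  rcases Nat.lt_or_gt_of_ne hji with h | h
  · -- j < i
    have hk : i - j ∣ L.factorial := Nat.dvd_factorial (by omega) (by omega)
    have : ((i : ℤ) - (j : ℤ)) = ((i - j : ℕ) : ℤ) := by
      rw [Nat.cast_sub h.le]
    rw [this]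
    exact_mod_cast hk
  · have hk : j - i ∣ L.factorial := Nat.dvd_factorial (by omega) (by omega)
    have : ((i : ℤ) - (j : ℤ)) = -((j - i : ℕ) : ℤ) := by
      rw [Nat.cast_sub h.le]; ring
    rw [this, neg_dvd]
    exact_mod_cast hk

/-- The divided difference of integral-times-1/3 data close to a polynomial of small degree
vanishes. -/
lemma divided_difference_eq_zero (d : ℕ) (s : Finset ℕ) (hcard : s.card = d + 2)
    (base L : ℕ) (hs : ∀ n ∈ s, base ≤ n ∧ n ≤ base + L)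
    (x : ℕ → ℚ) (hx : ∀ n ∈ s, ∃ z : ℤ, 3 * x n = z)
    (Q : ℝ[X]) (hQ : Q.natDegree ≤ d) (ε : ℝ)
    (hε : ∀ n ∈ s, |(x n : ℝ) - Q.eval (n : ℝ)| ≤ ε)
    (hsmall : 3 * ((L.factorial : ℝ)) ^ (d + 1) * ((d + 2 : ℕ) : ℝ) * ε < 1) :
    ∑ i ∈ s, x i / (nodeProd s i : ℚ) = 0 := by
  classical
  have hcard' : ∀ i ∈ s, (s.erase i).card = d + 1 := by
    intro i hi
    rw [Finset.card_erase_of_mem hi, hcard]; rfl
  -- (1) divided difference of Q vanishes
  have hinj : Set.InjOn (fun n : ℕ => (n : ℝ)) (s : Set ℕ) := Nat.cast_injective.injOn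
  have hQdeg : Q.degree < s.card := by
    rw [hcard]
    refine lt_of_le_of_lt degree_le_natDegree ?_
    exact_mod_cast (by omega : Q.natDegree < d + 2)
  have hQ0 : ∑ i ∈ s, Q.eval (i : ℝ) / ∏ j ∈ s.erase i, ((i : ℝ) - (j : ℝ)) = 0 := by
    have := Lagrange.coeff_eq_sum (s := s) (v := fun n : ℕ => (n : ℝ)) hinj hQdeg
    rw [← this, hcard]
    exact coeff_eq_zero_of_natDegree_lt (by simp; omega)
  have hprodR : ∀ i, (∏ j ∈ s.erase i, ((i : ℝ) - (j : ℝ))) = ((nodeProd s i : ℤ) : ℝ) := by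
    intro i; unfold nodeProd; push_cast; rfl
  -- (2) the real divided difference of x is small
  set δ : ℚ := ∑ i ∈ s, x i / (nodeProd s i : ℚ) with hδ
  have hδR : (δ : ℝ) = ∑ i ∈ s, ((x i : ℝ) - Q.eval (i : ℝ)) / ((nodeProd s i : ℤ) : ℝ) := by
    have h1 : (δ : ℝ) = ∑ i ∈ s, (x i : ℝ) / ((nodeProd s i : ℤ) : ℝ) := by
      rw [hδ]; push_cast; rfl
    rw [h1]
    have h2 : ∑ i ∈ s, Q.eval (i : ℝ) / ((nodeProd s i : ℤ) : ℝ) = 0 := by
      rw [← hQ0]
      exact Finset.sum_congr rfl (fun i _ => by rw [hprodR])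
    rw [← sub_zero (∑ i ∈ s, (x i : ℝ) / ((nodeProd s i : ℤ) : ℝ)), ← h2, ← Finset.sum_sub_distrib]
    exact Finset.sum_congr rfl (fun i _ => by ring)
  have hε0 : 0 ≤ ε := by
    have hne : s.Nonempty := by
      rw [← Finset.card_pos, hcard]; omega
    obtain ⟨n, hn⟩ := hne
    exact (abs_nonneg _).trans (hε n hn)
  have hδabs : |(δ : ℝ)| ≤ ((d + 2 : ℕ) : ℝ) * ε := by
    rw [hδR]
    refine (Finset.abs_sum_le_sum_abs _ _).trans ?_
    have : ∀ i ∈ s, |((x i : ℝ) - Q.eval (i : ℝ)) / ((nodeProd s i : ℤ) : ℝ)| ≤ ε := by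
      intro i hi
      rw [abs_div]
      have h1 : (1 : ℝ) ≤ |((nodeProd s i : ℤ) : ℝ)| := by
        have := Int.one_le_abs (nodeProd_ne_zero s i)
        rw [← Int.cast_abs]
        exact_mod_cast this
      calc |(x i : ℝ) - Q.eval (i : ℝ)| / |((nodeProd s i : ℤ) : ℝ)|
          ≤ |(x i : ℝ) - Q.eval (i : ℝ)| / 1 :=
            div_le_div_of_nonneg_left (abs_nonneg _) one_pos h1
        _ ≤ ε := by rw [div_one]; exact hε i hi
    calc ∑ i ∈ s, |((x i : ℝ) - Q.eval (i : ℝ)) / ((nodeProd s i : ℤ) : ℝ)|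
        ≤ ∑ _i ∈ s, ε := Finset.sum_le_sum this
      _ = ((d + 2 : ℕ) : ℝ) * ε := by
        rw [Finset.sum_const, hcard, nsmul_eq_mul]
  -- (3) integrality
  set 𝔇 : ℤ := (L.factorial : ℤ) ^ (d + 1) with h𝔇
  have h𝔇ne : 𝔇 ≠ 0 := by
    rw [h𝔇]; exact pow_ne_zero _ (by exact_mod_cast (Nat.factorial_ne_zero L))
  have hint : ∃ z : ℤ, 3 * (𝔇 : ℚ) * δ = z := by
    have hterm : ∀ i ∈ s, ∃ z : ℤ, 3 * (𝔇 : ℚ) * (x i / (nodeProd s i : ℚ)) = z := by
      intro i hi
      obtain ⟨z, hz⟩ := hx i hi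
      have hdvd := nodeProd_dvd s i base L hs hi
      rw [hcard' i hi] at hdvd
      obtain ⟨k, hk⟩ := hdvd
      refine ⟨z * k, ?_⟩
      have hne : (nodeProd s i : ℚ) ≠ 0 := by exact_mod_cast nodeProd_ne_zero s i
      have h𝔇k : (𝔇 : ℚ) = (nodeProd s i : ℚ) * k := by
        rw [h𝔇]; exact_mod_cast hk
      rw [h𝔇k]
      push_cast
      rw [← hz]
      field_simp
    choose! z hz using hterm
    refine ⟨∑ i ∈ s, z i, ?_⟩
    rw [hδ, Finset.mul_sum]
    push_cast
    exact Finset.sum_congr rfl hz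
  obtain ⟨z, hz⟩ := hint
  -- (4) smallness
  have hzabs : |(z : ℝ)| < 1 := by
    have h1 : (z : ℝ) = 3 * (𝔇 : ℝ) * (δ : ℝ) := by
      have := congrArg (fun q : ℚ => (q : ℝ)) hz
      push_cast at this
      rw [← this]
    rw [h1, abs_mul, abs_mul]
    have h3 : |(3 : ℝ)| = 3 := abs_of_pos (by norm_num)
    have h𝔇R : |(𝔇 : ℝ)| = ((L.factorial : ℝ)) ^ (d + 1) := by
      rw [h𝔇]; push_cast
      exact abs_of_nonneg (by positivity)
    rw [h3, h𝔇R]
    calc 3 * (L.factorial : ℝ) ^ (d + 1) * |(δ : ℝ)|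
        ≤ 3 * (L.factorial : ℝ) ^ (d + 1) * (((d + 2 : ℕ) : ℝ) * ε) :=
          mul_le_mul_of_nonneg_left hδabs (by positivity)
      _ = 3 * (L.factorial : ℝ) ^ (d + 1) * ((d + 2 : ℕ) : ℝ) * ε := by ring
      _ < 1 := hsmall
  have hz0 : z = 0 := by
    have : |z| < 1 := by
      have h := hzabs
      rw [← Int.cast_abs] at h
      exact_mod_cast h
    exact Int.abs_lt_one_iff.mp this
  rw [hz0] at hz
  have h3𝔇 : (3 : ℚ) * (𝔇 : ℚ) ≠ 0 := by
    refine mul_ne_zero (by norm_num) (by exact_mod_cast h𝔇ne)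
  simpa using (mul_eq_zero.mp hz).resolve_left h3𝔇

/-- A polynomial of degree `< k + 1` has `natDegree ≤ k`. -/
lemma natDegree_le_of_degree_lt_succ {F : Type*} [Field F] (R : F[X]) (k : ℕ)
    (h : R.degree < ((k + 1 : ℕ) : WithBot ℕ)) : R.natDegree ≤ k := by
  by_cases hR : R = 0
  · simp [hR]
  · have := (natDegree_lt_iff_degree_lt hR).mpr h
    omega

/-- **Interpolation with integrality.** -/
theorem exists_rat_poly (d : ℕ) (T : Finset ℕ) (base L : ℕ)
    (hT : ∀ n ∈ T, base ≤ n ∧ n ≤ base + L)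
    (x : ℕ → ℚ) (hx : ∀ n ∈ T, ∃ z : ℤ, 3 * x n = z)
    (Q : ℝ[X]) (hQ : Q.natDegree ≤ d) (ε : ℝ)
    (hε : ∀ n ∈ T, |(x n : ℝ) - Q.eval (n : ℝ)| ≤ ε)
    (hsmall : 3 * ((L.factorial : ℝ)) ^ (d + 1) * ((d + 2 : ℕ) : ℝ) * ε < 1) :
    ∃ R : ℚ[X], R.natDegree ≤ d ∧ ∀ n ∈ T, R.eval (n : ℚ) = x n := by
  classical
  set v : ℕ → ℚ := fun n => (n : ℚ) with hv
  have hinj : ∀ s : Finset ℕ, Set.InjOn v (s : Set ℕ) := fun s => Nat.cast_injective.injOn
  by_cases hTc : T.card ≤ d + 1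
  · refine ⟨Lagrange.interpolate T v x, ?_, fun n hn => ?_⟩
    · apply natDegree_le_of_degree_lt_succ
      refine lt_of_lt_of_le (Lagrange.degree_interpolate_lt x (hinj T)) ?_
      exact_mod_cast hTc
    · exact Lagrange.eval_interpolate_at_node x (hinj T) hn
  · push Not at hTc
    obtain ⟨s₀, hs₀T, hs₀c⟩ := Finset.exists_subset_card_eq (s := T) (n := d + 1) hTc.le
    set R := Lagrange.interpolate s₀ v x with hR
    have hRdeg : R.degree < ((d + 1 : ℕ) : WithBot ℕ) := by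
      have := Lagrange.degree_interpolate_lt x (hinj s₀)
      rw [hs₀c] at this
      exact this
    refine ⟨R, natDegree_le_of_degree_lt_succ R d hRdeg, fun n hn => ?_⟩
    by_cases hns : n ∈ s₀
    · exact Lagrange.eval_interpolate_at_node x (hinj s₀) hns
    · set s := insert n s₀ with hs
      have hsT : s ⊆ T := Finset.insert_subset hn hs₀T
      have hsc : s.card = d + 2 := by
        rw [hs, Finset.card_insert_of_notMem hns, hs₀c]
      have hdd := divided_difference_eq_zero d s hsc base L (fun m hm => hT m (hsT hm)) x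
        (fun m hm => hx m (hsT hm)) Q hQ ε (fun m hm => hε m (hsT hm)) hsmall
      set R' := Lagrange.interpolate s v x with hR'
      have hR'deg : R'.degree < ((d + 2 : ℕ) : WithBot ℕ) := by
        have := Lagrange.degree_interpolate_lt x (hinj s)
        rw [hsc] at this
        exact this
      have hR'eval : ∀ i ∈ s, R'.eval (v i) = x i :=
        fun i hi => Lagrange.eval_interpolate_at_node x (hinj s) hi
      have hcoeff : R'.coeff (d + 1) = 0 := by
        have h1 := Lagrange.coeff_eq_sum (s := s) (v := v) (hinj s) (P := R')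
          (by rw [hsc]; exact hR'deg)
        rw [hsc] at h1
        have h2 : d + 2 - 1 = d + 1 := rfl
        rw [h2] at h1
        rw [h1, ← hdd]
        refine Finset.sum_congr rfl (fun i hi => ?_)
        rw [hR'eval i hi]
        congr 1
        unfold nodeProd
        push_cast
        rfl
      have hR'deg' : R'.degree < ((d + 1 : ℕ) : WithBot ℕ) := by
        rw [degree_lt_iff_coeff_zero]
        intro m hm
        rcases Nat.eq_or_lt_of_le hm with h | h
        · rw [← h]; exact hcoeff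
        · exact (degree_lt_iff_coeff_zero R' (d + 2)).mp hR'deg m h
      have hRR' : R' = R := by
        refine Polynomial.eq_of_degrees_lt_of_eval_index_eq (v := v) s₀ (hinj s₀) ?_ ?_ ?_
        · rw [hs₀c]; exact hR'deg'
        · rw [hs₀c]; exact hRdeg
        · intro i hi
          rw [hR'eval i (Finset.mem_insert_of_mem hi)]
          exact (Lagrange.eval_interpolate_at_node x (hinj s₀) hi).symm
      rw [← hRR']
      exact hR'eval n (Finset.mem_insert_self n s₀)

end Fermat.Agent.S52.H712
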