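import Fermat.Agent.S52.H712.ApproxNat
import Fermat.Agent.S52.H712.Interp

/-!
# S52 / (B3): Hilbert irreducibility by hand for the `ψ₃`-quartic

Main result `exists_rootless`:
for `a, b ∈ ℤ[X]` with `deg a ≤ 2d`, `deg b ≤ 3d`, nondegenerate leading form
`4 a_{2d}³ + 27 b_{3d}² ≠ 0`, such that `3R⁴ + 6aR² + 12bR − a²` is a nonzero polynomial for every
`R ∈ ℚ[X]` of degree `≤ d`, every arithmetic progression contains arbitrarily large `n` such that
`3x⁴ + 6a(n)x² + 12b(n)x − a(n)²` has no rational root.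
-/

namespace Fermat.Agent.S52.H712

open Polynomial Finset

/-- Integrality: a rational root `x` of the quartic with integer `a, b` has `3x ∈ ℤ`. -/
lemma three_mul_root_isInt (a b : ℤ) (x : ℚ) (hx : quartic (a : ℚ) (b : ℚ) x = 0) :
    ∃ z : ℤ, 3 * x = z := by
  -- y = 3x is a root of the monic polynomial  Y⁴ + 18 a Y² + 108 b Y − 27 a²
  set q : ℤ[X] := C (18 * a) * X ^ 2 + C (108 * b) * X - C (27 * a ^ 2) with hq
  have hqdeg : q.degree < ((4 : ℕ) : WithBot ℕ) := by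
    rw [degree_lt_iff_coeff_zero]
    intro m hm
    simp only [hq, coeff_sub, coeff_add, coeff_C_mul, coeff_X_pow, coeff_X, coeff_C]
    have h2 : m ≠ 2 := by omega
    have h1 : 1 ≠ m := by omega
    have h0 : m ≠ 0 := by omega
    simp [h2, h1, h0]
  have hmonic : (X ^ 4 + q).Monic := monic_X_pow_add hqdeg
  have hroot : aeval (3 * x) (X ^ 4 + q) = 0 := by
    simp only [hq, map_add, map_sub, map_mul, map_pow, aeval_X, aeval_C]
    unfold quartic at hx
    simp only [eq_intCast, Int.cast_ofNat]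
    linear_combination 27 * hx
  obtain ⟨z, hz⟩ := isInteger_of_is_root_of_monic hmonic hroot
  exact ⟨z, by simpa using hz.symm⟩

/-- Degree bound for the quartic evaluated on polynomials. -/
lemma natDegree_quartic_le {F : Type*} [Field F] (d : ℕ) (a b R : F[X])
    (ha : a.natDegree ≤ 2 * d) (hb : b.natDegree ≤ 3 * d) (hR : R.natDegree ≤ d) :
    (quartic a b R).natDegree ≤ 4 * d := by
  unfold quartic
  have h3 : (3 : F[X]).natDegree ≤ 0 := (natDegree_ofNat 3).le
  have h6 : (6 : F[X]).natDegree ≤ 0 := (natDegree_ofNat 6).le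
  have h12 : (12 : F[X]).natDegree ≤ 0 := (natDegree_ofNat 12).le
  have e1 : (3 * R ^ 4).natDegree ≤ 4 * d := by
    have := natDegree_mul_le_of_le h3 (natDegree_pow_le_of_le 4 hR)
    omega
  have e2 : (6 * a * R ^ 2).natDegree ≤ 4 * d := by
    have := natDegree_mul_le_of_le (natDegree_mul_le_of_le h6 ha) (natDegree_pow_le_of_le 2 hR)
    omega
  have e3 : (12 * b * R).natDegree ≤ 4 * d := by
    have := natDegree_mul_le_of_le (natDegree_mul_le_of_le h12 hb) hR
    omega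
  have e4 : (a ^ 2).natDegree ≤ 4 * d := by
    have := natDegree_pow_le_of_le 2 ha
    omega
  exact natDegree_sub_le_of_le
    (natDegree_add_le_of_degree_le (natDegree_add_le_of_degree_le e1 e2) e3) e4
    |>.trans (by simp)

/-- **Hilbert irreducibility by hand** for the `ψ₃`-quartic. -/
theorem exists_rootless (d : ℕ) (a b : ℤ[X]) (ha : a.natDegree ≤ 2 * d)
    (hb : b.natDegree ≤ 3 * d)
    (hdisc : 4 * (a.coeff (2 * d)) ^ 3 + 27 * (b.coeff (3 * d)) ^ 2 ≠ 0)
    (hnoroot : ∀ R : ℚ[X], R.natDegree ≤ d →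
      quartic (a.map (Int.castRingHom ℚ)) (b.map (Int.castRingHom ℚ)) R ≠ 0)
    (m : ℕ) (hm : 0 < m) (n₀ N : ℕ) :
    ∃ n : ℕ, N ≤ n ∧ n ≡ n₀ [MOD m] ∧
      ∀ x : ℚ, quartic ((a.eval (n : ℤ) : ℤ) : ℚ) ((b.eval (n : ℤ) : ℤ) : ℚ) x ≠ 0 := by
  classical
  by_contra hcon
  push Not at hcon
  -- rational roots for all admissible n
  have hroot : ∀ n : ℕ, ∃ x : ℚ, N ≤ n → n ≡ n₀ [MOD m] →
      quartic ((a.eval (n : ℤ) : ℤ) : ℚ) ((b.eval (n : ℤ) : ℤ) : ℚ) x = 0 := by
    intro n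
    by_cases h : N ≤ n ∧ n ≡ n₀ [MOD m]
    · obtain ⟨x, hx⟩ := hcon n h.1 h.2
      exact ⟨x, fun _ _ => hx⟩
    · exact ⟨0, fun h1 h2 => absurd ⟨h1, h2⟩ h⟩
  choose x hx using hroot
  obtain ⟨Z, Q, C, N₁, hC, hN₁, hQdeg, happ⟩ := approx_nat d a b ha hb hdisc
  set K : ℕ := Z.card * (4 * d) + 1 with hK
  set L : ℕ := K * m with hL
  set B₀ : ℕ := max N (max N₁ (⌈3 * ((L.factorial : ℝ)) ^ (d + 1) * ((d + 2 : ℕ) : ℝ) * C⌉₊ + 1))
    with hB₀
  set base : ℕ := n₀ + m * B₀ with hbase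
  have hbaseB : B₀ ≤ base := by
    rw [hbase]
    calc B₀ = 1 * B₀ := (one_mul _).symm
      _ ≤ m * B₀ := Nat.mul_le_mul_right _ hm
      _ ≤ n₀ + m * B₀ := Nat.le_add_left _ _
  have hbaseN : N ≤ base := (le_max_left _ _).trans hbaseB
  have hbaseN₁ : N₁ ≤ base := ((le_max_left _ _).trans (le_max_right _ _)).trans hbaseB
  have hbasepos : 0 < base := lt_of_lt_of_le hN₁ hbaseN₁
  have hbaseC : 3 * ((L.factorial : ℝ)) ^ (d + 1) * ((d + 2 : ℕ) : ℝ) * C < base := by
    have h1 := Nat.le_ceil (3 * ((L.factorial : ℝ)) ^ (d + 1) * ((d + 2 : ℕ) : ℝ) * C)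
    have h2 : ⌈3 * ((L.factorial : ℝ)) ^ (d + 1) * ((d + 2 : ℕ) : ℝ) * C⌉₊ + 1 ≤ base :=
      ((le_max_right _ _).trans (le_max_right _ _)).trans hbaseB
    have h3 : ((⌈3 * ((L.factorial : ℝ)) ^ (d + 1) * ((d + 2 : ℕ) : ℝ) * C⌉₊ + 1 : ℕ) : ℝ)
        ≤ (base : ℝ) := by exact_mod_cast h2
    rw [Nat.cast_add, Nat.cast_one] at h3
    linarith
  -- the block of points
  set S : Finset ℕ := (Finset.range K).image (fun i => base + i * m) with hS
  have hinjS : Function.Injective (fun i : ℕ => base + i * m) := by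
    intro i j hij
    simp only at hij
    have : i * m = j * m := by omega
    exact Nat.eq_of_mul_eq_mul_right hm this
  have hScard : S.card = K := by
    rw [hS, Finset.card_image_of_injective _ hinjS, Finset.card_range]
  have hSprop : ∀ n ∈ S, N ≤ n ∧ n ≡ n₀ [MOD m] ∧ base ≤ n ∧ n ≤ base + L := by
    intro n hn
    rw [hS, Finset.mem_image] at hn
    obtain ⟨i, hi, rfl⟩ := hn
    rw [Finset.mem_range] at hi
    refine ⟨hbaseN.trans (Nat.le_add_right _ _), ?_, Nat.le_add_right _ _, ?_⟩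
    · rw [hbase]
      have : n₀ + m * B₀ + i * m = n₀ + m * (B₀ + i) := by ring
      rw [this]
      exact Nat.add_mul_mod_self_left _ _ _
    · rw [hL]
      have : i * m ≤ K * m := Nat.mul_le_mul_right _ hi.le
      omega
  -- real roots and branches
  have hbranch : ∀ n : ℕ, ∃ ρ : ℝ, n ∈ S → (ρ ∈ Z ∧ |(x n : ℝ) - (Q ρ).eval (n : ℝ)| ≤ C / n) := by
    intro n
    by_cases hn : n ∈ S
    · obtain ⟨h1, h2, h3, -⟩ := hSprop n hn
      have hxn := hx n h1 h2
      have hxR : quartic ((a.eval (n : ℤ) : ℤ) : ℝ) ((b.eval (n : ℤ) : ℤ) : ℝ) (x n : ℝ) = 0 := by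
        have := congrArg (fun q : ℚ => (q : ℝ)) hxn
        simp only [quartic] at this ⊢
        push_cast at this
        exact this
      obtain ⟨ρ, hρ, hρ'⟩ := happ n (hbaseN₁.trans h3) (x n) hxR
      exact ⟨ρ, fun _ => ⟨hρ, hρ'⟩⟩
    · exact ⟨0, fun h => absurd h hn⟩
  choose f hf using hbranch
  -- pigeonhole
  obtain ⟨ρ, hρZ, hρcard⟩ := Finset.exists_lt_card_fiber_of_mul_lt_card_of_maps_to
    (s := S) (t := Z) (f := f) (n := 4 * d) (fun n hn => (hf n hn).1)
    (by rw [hScard, hK]; omega)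
  set T : Finset ℕ := {n ∈ S | f n = ρ} with hT
  have hTS : ∀ n ∈ T, n ∈ S ∧ f n = ρ := fun n hn => by
    rw [hT, Finset.mem_filter] at hn; exact hn
  -- interpolation
  set ε : ℝ := C / base with hε
  have hbaseR : (0 : ℝ) < base := by exact_mod_cast hbasepos
  have hsmall : 3 * ((L.factorial : ℝ)) ^ (d + 1) * ((d + 2 : ℕ) : ℝ) * ε < 1 := by
    rw [hε, mul_div_assoc', div_lt_one hbaseR]
    exact hbaseC
  obtain ⟨R, hRdeg, hReval⟩ := exists_rat_poly d T base L
    (fun n hn => ⟨(hSprop n (hTS n hn).1).2.2.1, (hSprop n (hTS n hn).1).2.2.2⟩) x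
    (fun n hn => by
      obtain ⟨h1, h2, -, -⟩ := hSprop n (hTS n hn).1
      exact three_mul_root_isInt _ _ _ (hx n h1 h2))
    (Q ρ) (hQdeg ρ hρZ) ε
    (fun n hn => by
      obtain ⟨hnS, hfn⟩ := hTS n hn
      have h := (hf n hnS).2
      rw [hfn] at h
      refine h.trans ?_
      rw [hε]
      have hbn : (base : ℝ) ≤ n := by exact_mod_cast (hSprop n hnS).2.2.1
      exact div_le_div_of_nonneg_left hC hbaseR hbn)
    hsmall
  -- the polynomial P vanishes at all points of T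
  set aQ : ℚ[X] := a.map (Int.castRingHom ℚ) with haQ
  set bQ : ℚ[X] := b.map (Int.castRingHom ℚ) with hbQ
  set P : ℚ[X] := quartic aQ bQ R with hP
  have hPdeg : P.natDegree ≤ 4 * d :=
    natDegree_quartic_le d aQ bQ R ((natDegree_map_le).trans ha) ((natDegree_map_le).trans hb) hRdeg
  have hPeval : ∀ n ∈ T, P.eval ((n : ℕ) : ℚ) = 0 := by
    intro n hn
    obtain ⟨h1, h2, -, -⟩ := hSprop n (hTS n hn).1
    have h := quartic_map (evalRingHom ((n : ℕ) : ℚ)) aQ bQ R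
    simp only [coe_evalRingHom] at h
    rw [hP, h, hReval n hn, haQ, hbQ]
    have ea : (a.map (Int.castRingHom ℚ)).eval ((n : ℕ) : ℚ) = ((a.eval (n : ℤ) : ℤ) : ℚ) := by
      simp
    have eb : (b.map (Int.castRingHom ℚ)).eval ((n : ℕ) : ℚ) = ((b.eval (n : ℤ) : ℤ) : ℚ) := by
      simp
    rw [ea, eb]
    exact hx n h1 h2
  have hP0 : P = 0 := by
    refine Polynomial.eq_zero_of_natDegree_lt_card_of_eval_eq_zero' P (T.image (fun n : ℕ => (n : ℚ)))
      ?_ ?_
    · intro y hy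
      rw [Finset.mem_image] at hy
      obtain ⟨n, hn, rfl⟩ := hy
      exact hPeval n hn
    · rw [Finset.card_image_of_injective _ Nat.cast_injective]
      exact lt_of_le_of_lt hPdeg hρcard
  exact hnoroot R hRdeg hP0

end Fermat.Agent.S52.H712
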