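import Fermat.Agent.S52.H712.Quartic

/-!
# S52 / (B3): real-analytic localisation of the roots of the `ψ₃`-quartic

For polynomials `A B : ℝ[X]` with `4 A(0)³ + 27 B(0)² ≠ 0` every real root `ξ` of
`quartic (A s) (B s) ·` for small `s > 0` is within `C s^(d+1)` of `p ρ (s)` for one of finitely
many polynomials `p ρ` of degree `≤ d`.
-/

namespace Fermat.Agent.S52.H712

open Polynomial

/-- Roots of the quartic are bounded in terms of bounds on the coefficients. -/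
lemma quartic_root_bound (a b ξ M : ℝ) (hM : 0 ≤ M) (ha : |a| ≤ M) (hb : |b| ≤ M)
    (h : quartic a b ξ = 0) : |ξ| ≤ 1 + 6 * M + M ^ 2 := by
  by_contra hcon
  push Not at hcon
  have hξ1 : 1 < |ξ| := by nlinarith [sq_nonneg M]
  set t := |ξ| with ht
  have ht0 : 0 < t := by linarith
  have hsq : ξ ^ 2 = t ^ 2 := by rw [ht, sq_abs]
  have h4 : ξ ^ 4 = t ^ 4 := by
    have : ξ ^ 4 = (ξ ^ 2) ^ 2 := by ring
    rw [this, hsq]; ring
  unfold quartic at h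
  have h1 : 3 * t ^ 4 = -(6 * a * t ^ 2) - 12 * b * ξ + a ^ 2 := by
    rw [← h4, ← hsq]; linarith
  have hbξ : -(12 * b * ξ) ≤ 12 * M * t := by
    have : |b * ξ| ≤ M * t := by
      rw [abs_mul]; exact mul_le_mul hb le_rfl (abs_nonneg _) hM
    have := neg_abs_le (b * ξ)
    nlinarith [abs_le.mp ‹|b * ξ| ≤ M * t›]
  have haξ : -(6 * a * t ^ 2) ≤ 6 * M * t ^ 2 := by
    have h2 : -a ≤ M := (neg_le_abs a).trans ha
    nlinarith [sq_nonneg t]
  have ha2 : a ^ 2 ≤ M ^ 2 := by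
    have := sq_abs a
    nlinarith [abs_nonneg a]
  have hup : 3 * t ^ 4 ≤ 6 * M * t ^ 2 + 12 * M * t + M ^ 2 := by linarith
  -- since t > 1 : t^2 ≤ t^3, t ≤ t^3, 1 ≤ t^3
  have ht2 : t ^ 2 ≤ t ^ 3 := by nlinarith [sq_nonneg t]
  have ht1 : t ≤ t ^ 3 := by nlinarith [sq_nonneg t]
  have ht3 : 1 ≤ t ^ 3 := by nlinarith [sq_nonneg t]
  have hup2 : 3 * t ^ 4 ≤ (18 * M + M ^ 2) * t ^ 3 := by
    nlinarith [mul_nonneg hM (sq_nonneg M), sq_nonneg M]
  have ht3pos : 0 < t ^ 3 := by positivity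
  have : 3 * t ≤ 18 * M + M ^ 2 := by
    by_contra hc
    push Not at hc
    have : (18 * M + M ^ 2) * t ^ 3 < 3 * t * t ^ 3 := mul_lt_mul_of_pos_right hc ht3pos
    nlinarith
  nlinarith [sq_nonneg M]

/-- A polynomial is bounded on `[0,1]`. -/
lemma exists_bound_unit (P : ℝ[X]) : ∃ M : ℝ, 0 ≤ M ∧ ∀ s ∈ Set.Icc (0 : ℝ) 1, |P.eval s| ≤ M := by
  obtain ⟨M, hM⟩ := (isCompact_Icc (a := (0 : ℝ)) (b := 1)).exists_bound_of_continuousOn
    (f := fun s => P.eval s) P.continuous.continuousOn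
  refine ⟨max M 0, le_max_right _ _, fun s hs => ?_⟩
  have := hM s hs
  rw [Real.norm_eq_abs] at this
  exact this.trans (le_max_left _ _)

/-- Uniform bound for the roots when `s ∈ [0,1]`. -/
lemma exists_root_bound (A B : ℝ[X]) :
    ∃ K : ℝ, 0 ≤ K ∧ ∀ s ∈ Set.Icc (0 : ℝ) 1, ∀ ξ : ℝ,
      quartic (A.eval s) (B.eval s) ξ = 0 → |ξ| ≤ K := by
  obtain ⟨MA, hMA0, hMA⟩ := exists_bound_unit A
  obtain ⟨MB, hMB0, hMB⟩ := exists_bound_unit B
  set M := max MA MB with hM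
  have hM0 : 0 ≤ M := le_max_of_le_left hMA0
  refine ⟨1 + 6 * M + M ^ 2, by positivity, fun s hs ξ hξ => ?_⟩
  exact quartic_root_bound _ _ ξ M hM0 ((hMA s hs).trans (le_max_left _ _))
    ((hMB s hs).trans (le_max_right _ _)) hξ

/-- The quartic at parameter `s` is `O(s)`-close to the quartic at `s = 0`, uniformly on
bounded sets. -/
lemma exists_close (A B : ℝ[X]) (K : ℝ) :
    ∃ C₁ : ℝ, 0 ≤ C₁ ∧ ∀ s ∈ Set.Icc (0 : ℝ) 1, ∀ ξ : ℝ, |ξ| ≤ K →
      |quartic (A.eval s) (B.eval s) ξ - quartic (A.eval 0) (B.eval 0) ξ| ≤ C₁ * s := by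
  -- A = A.divX * X + C (A.coeff 0)
  set A₁ := A.divX with hA₁
  set B₁ := B.divX with hB₁
  have hA : ∀ s : ℝ, A.eval s = A.eval 0 + s * A₁.eval s := by
    intro s
    conv_lhs => rw [← divX_mul_X_add A]
    simp [coeff_zero_eq_eval_zero, hA₁]; ring
  have hB : ∀ s : ℝ, B.eval s = B.eval 0 + s * B₁.eval s := by
    intro s
    conv_lhs => rw [← divX_mul_X_add B]
    simp [coeff_zero_eq_eval_zero, hB₁]; ring
  set Φ : ℝ × ℝ → ℝ := fun x =>
    6 * A₁.eval x.1 * x.2 ^ 2 + 12 * B₁.eval x.1 * x.2 - A₁.eval x.1 * (A.eval x.1 + A.eval 0)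
    with hΦ
  have hΦc : Continuous Φ := by
    have h1 : Continuous fun x : ℝ × ℝ => A₁.eval x.1 := A₁.continuous.comp continuous_fst
    have h2 : Continuous fun x : ℝ × ℝ => B₁.eval x.1 := B₁.continuous.comp continuous_fst
    have h3 : Continuous fun x : ℝ × ℝ => A.eval x.1 := A.continuous.comp continuous_fst
    have h4 : Continuous fun x : ℝ × ℝ => x.2 := continuous_snd
    exact (((continuous_const.mul h1).mul (h4.pow 2)).add ((continuous_const.mul h2).mul h4)).sub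
      (h1.mul (h3.add continuous_const))
  obtain ⟨C, hC⟩ := ((isCompact_Icc (a := (0 : ℝ)) (b := 1)).prod
    (isCompact_Icc (a := -K) (b := K))).exists_bound_of_continuousOn hΦc.continuousOn
  refine ⟨max C 0, le_max_right _ _, fun s hs ξ hξ => ?_⟩
  have hmem : (s, ξ) ∈ (Set.Icc (0 : ℝ) 1) ×ˢ (Set.Icc (-K) K) :=
    ⟨hs, abs_le.mp hξ⟩
  have hb := hC (s, ξ) hmem
  rw [Real.norm_eq_abs] at hb
  have hdiff : quartic (A.eval s) (B.eval s) ξ - quartic (A.eval 0) (B.eval 0) ξ = s * Φ (s, ξ) := by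
    simp only [hΦ, quartic]
    rw [hB s]
    have hAs := hA s
    generalize A.eval s = as at hAs ⊢
    rw [hAs]; ring
  rw [hdiff, abs_mul, abs_of_nonneg hs.1, mul_comm]
  exact mul_le_mul_of_nonneg_right (hb.trans (le_max_left _ _)) hs.1

/-- Separation: on a bounded set, if `Λ(ξ)` is small then `ξ` is close to a root of `Λ`. -/
lemma exists_separation (Λ : ℝ → ℝ) (hΛ : Continuous Λ) (Z : Finset ℝ)
    (hZ : ∀ ρ : ℝ, Λ ρ = 0 → ρ ∈ Z) (K δ : ℝ) (hδ : 0 < δ) :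
    ∃ c : ℝ, 0 < c ∧ ∀ ξ : ℝ, |ξ| ≤ K → |Λ ξ| < c → ∃ ρ ∈ Z, |ξ - ρ| < δ := by
  set S : Set ℝ := Set.Icc (-K) K ∩ ⋂ ρ ∈ Z, {ξ | δ ≤ |ξ - ρ|} with hS
  have hSc : IsCompact S := by
    refine isCompact_Icc.inter_right ?_
    refine isClosed_biInter fun ρ _ => ?_
    exact isClosed_le continuous_const (continuous_abs.comp (continuous_id.sub continuous_const))
  by_cases hne : S.Nonempty
  · obtain ⟨ξ₀, hξ₀, hmin⟩ := hSc.exists_isMinOn hne
      (f := fun ξ => |Λ ξ|) (continuous_abs.comp hΛ).continuousOn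
    have hpos : 0 < |Λ ξ₀| := by
      rw [abs_pos]
      intro h0
      have hmem := hZ ξ₀ h0
      have : ξ₀ ∈ ⋂ ρ ∈ Z, {ξ | δ ≤ |ξ - ρ|} := hξ₀.2
      simp only [Set.mem_iInter, Set.mem_ofPred_eq] at this
      have := this ξ₀ hmem
      simp at this
      linarith
    refine ⟨|Λ ξ₀|, hpos, fun ξ hξ hlt => ?_⟩
    by_contra hcon
    push Not at hcon
    have hξS : ξ ∈ S := by
      refine ⟨abs_le.mp hξ, ?_⟩
      simp only [Set.mem_iInter, Set.mem_ofPred_eq]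
      exact hcon
    have := hmin hξS
    simp only [Set.mem_ofPred_eq] at this
    linarith
  · refine ⟨1, one_pos, fun ξ hξ _ => ?_⟩
    by_contra hcon
    push Not at hcon
    apply hne
    refine ⟨ξ, abs_le.mp hξ, ?_⟩
    simp only [Set.mem_iInter, Set.mem_ofPred_eq]
    exact hcon

/-- Local approximation near a simple root `ρ`: roots `ξ` of the quartic at parameter `s`
which are `δ`-close to `ρ` are `O(s^(d+1))`-close to the Hensel polynomial. -/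
lemma exists_local_approx (A B : ℝ[X]) (ρ : ℝ) (p g : ℝ[X]) (d : ℕ)
    (hp0 : p.eval 0 = ρ) (hg : quartic A B p = X ^ (d + 1) * g)
    (hsimple : quarticDD (A.eval 0) (B.eval 0) ρ ρ ≠ 0) :
    ∃ δ : ℝ, 0 < δ ∧ ∃ s₀ : ℝ, 0 < s₀ ∧ ∃ C : ℝ, 0 ≤ C ∧
      ∀ s ξ : ℝ, 0 < s → s ≤ s₀ → quartic (A.eval s) (B.eval s) ξ = 0 → |ξ - ρ| < δ →
        |ξ - p.eval s| ≤ C * s ^ (d + 1) := by
  set D := quarticDD (A.eval 0) (B.eval 0) ρ ρ with hD
  have hDpos : 0 < |D| := abs_pos.mpr hsimple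
  set h : ℝ × ℝ → ℝ := fun x => quarticDD (A.eval x.1) (B.eval x.1) x.2 (p.eval x.1) with hh
  have hcont : Continuous h := by
    have h1 : Continuous fun x : ℝ × ℝ => A.eval x.1 := A.continuous.comp continuous_fst
    have h2 : Continuous fun x : ℝ × ℝ => B.eval x.1 := B.continuous.comp continuous_fst
    have h3 : Continuous fun x : ℝ × ℝ => p.eval x.1 := p.continuous.comp continuous_fst
    have h4 : Continuous fun x : ℝ × ℝ => x.2 := continuous_snd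
    simp only [hh, quarticDD]
    fun_prop
  have h0 : h (0, ρ) = D := by simp [hh, hD, hp0]
  -- neighbourhood where |h - D| < |D|/2
  have hnhds : ∀ᶠ x in nhds ((0 : ℝ), ρ), |h x - D| < |D| / 2 := by
    have ht : Filter.Tendsto h (nhds ((0 : ℝ), ρ)) (nhds D) := by
      rw [← h0]; exact hcont.continuousAt
    have := (Metric.tendsto_nhds.mp ht) (|D| / 2) (by positivity)
    simpa [Real.dist_eq] using this
  obtain ⟨η, hη, hball⟩ := Metric.eventually_nhds_iff.mp hnhds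
  obtain ⟨Mg, hMg0, hMg⟩ := exists_bound_unit g
  refine ⟨η, hη, min (η / 2) 1, by positivity, 2 * Mg / |D|, by positivity, ?_⟩
  intro s ξ hs hs₀ hroot hξ
  have hs1 : s ≤ 1 := hs₀.trans (min_le_right _ _)
  have hsη : s < η := by
    have := hs₀.trans (min_le_left _ _)
    linarith
  have hdist : dist (s, ξ) ((0 : ℝ), ρ) < η := by
    rw [Prod.dist_eq]
    simp only [Real.dist_eq, sub_zero]
    exact max_lt (by rw [abs_of_pos hs]; exact hsη) hξ
  have hclose := hball hdist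
  have hlow : |D| / 2 ≤ |h (s, ξ)| := by
    have h1 : |D| - |h (s, ξ)| ≤ |h (s, ξ) - D| := by
      have := abs_sub_abs_le_abs_sub D (h (s, ξ))
      rw [abs_sub_comm] at this
      exact this
    linarith
  -- (ξ - p(s)) * h = G(s,ξ) - G(s,p(s)) = - s^(d+1) g(s)
  have hG : quartic (A.eval s) (B.eval s) (p.eval s) = s ^ (d + 1) * g.eval s := by
    have := congrArg (fun q => eval s q) hg
    simp only [eval_mul, eval_pow, eval_X] at this
    rw [← this]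
    exact (quartic_map (evalRingHom s) A B p).symm
  have hkey : (ξ - p.eval s) * h (s, ξ) = -(s ^ (d + 1) * g.eval s) := by
    have := quartic_sub (A.eval s) (B.eval s) ξ (p.eval s)
    rw [hroot, hG] at this
    simp only [hh]
    linarith
  have habs : |ξ - p.eval s| * |h (s, ξ)| = s ^ (d + 1) * |g.eval s| := by
    rw [← abs_mul, hkey, abs_neg, abs_mul, abs_of_nonneg (by positivity : (0:ℝ) ≤ s ^ (d + 1))]
  have hgb : |g.eval s| ≤ Mg := hMg s ⟨hs.le, hs1⟩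
  have hspow : (0 : ℝ) ≤ s ^ (d + 1) := by positivity
  have h2 : |ξ - p.eval s| * (|D| / 2) ≤ s ^ (d + 1) * Mg := by
    calc |ξ - p.eval s| * (|D| / 2) ≤ |ξ - p.eval s| * |h (s, ξ)| :=
          mul_le_mul_of_nonneg_left hlow (abs_nonneg _)
      _ = s ^ (d + 1) * |g.eval s| := habs
      _ ≤ s ^ (d + 1) * Mg := mul_le_mul_of_nonneg_left hgb hspow
  rw [div_mul_eq_mul_div, le_div_iff₀ hDpos]
  nlinarith

/-- Uniformisation of constants over a finite index set. -/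
lemma exists_uniform {ι : Type*} (Z : Finset ι) (P : ι → ℝ → ℝ → ℝ → Prop)
    (hmono : ∀ i δ s C δ' s' C', P i δ s C → δ' ≤ δ → s' ≤ s → C ≤ C' → P i δ' s' C')
    (h : ∀ i ∈ Z, ∃ δ : ℝ, 0 < δ ∧ ∃ s : ℝ, 0 < s ∧ ∃ C : ℝ, 0 ≤ C ∧ P i δ s C) :
    ∃ δ : ℝ, 0 < δ ∧ ∃ s : ℝ, 0 < s ∧ ∃ C : ℝ, 0 ≤ C ∧ ∀ i ∈ Z, P i δ s C := by
  classical
  induction Z using Finset.induction_on with
  | empty => exact ⟨1, one_pos, 1, one_pos, 0, le_rfl, by simp⟩
  | insert a Z ha ih =>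
    obtain ⟨δ₁, hδ₁, s₁, hs₁, C₁, hC₁, h₁⟩ := ih (fun i hi => h i (Finset.mem_insert_of_mem hi))
    obtain ⟨δ₂, hδ₂, s₂, hs₂, C₂, hC₂, h₂⟩ := h a (Finset.mem_insert_self a Z)
    refine ⟨min δ₁ δ₂, lt_min hδ₁ hδ₂, min s₁ s₂, lt_min hs₁ hs₂, max C₁ C₂,
      hC₁.trans (le_max_left _ _), fun i hi => ?_⟩
    rcases Finset.mem_insert.mp hi with rfl | hi
    · exact hmono _ _ _ _ _ _ _ h₂ (min_le_right _ _) (min_le_right _ _) (le_max_right _ _)
    · exact hmono _ _ _ _ _ _ _ (h₁ i hi) (min_le_left _ _) (min_le_left _ _) (le_max_left _ _)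

/-- **Approximation theorem in the variable `s`.** -/
theorem approx_s (A B : ℝ[X]) (hdisc : 4 * (A.eval 0) ^ 3 + 27 * (B.eval 0) ^ 2 ≠ 0) (d : ℕ) :
    ∃ (Z : Finset ℝ) (p : ℝ → ℝ[X]) (C s₁ : ℝ), 0 ≤ C ∧ 0 < s₁ ∧ s₁ ≤ 1 ∧
      (∀ ρ ∈ Z, (p ρ).natDegree ≤ d) ∧
      ∀ s ξ : ℝ, 0 < s → s ≤ s₁ → quartic (A.eval s) (B.eval s) ξ = 0 →
        ∃ ρ ∈ Z, |ξ - (p ρ).eval s| ≤ C * s ^ (d + 1) := by
  classical
  set α := A.eval 0 with hα
  set β := B.eval 0 with hβ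
  -- the polynomial Λ
  set Λp : ℝ[X] := quartic (C α) (C β) X with hΛp
  have hΛeval : ∀ ξ : ℝ, Λp.eval ξ = quartic α β ξ := by
    intro ξ
    have := quartic_map (evalRingHom ξ) (C α) (C β) X
    simpa using this
  have hΛne : Λp ≠ 0 := by
    intro h0
    have e0 := hΛeval 0
    have e1 := hΛeval 1
    have e2 := hΛeval (-1)
    rw [h0] at e0 e1 e2
    simp only [eval_zero, quartic] at e0 e1 e2
    nlinarith [sq_nonneg α]
  set Z : Finset ℝ := Λp.roots.toFinset with hZdef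
  have hZ : ∀ ρ : ℝ, quartic α β ρ = 0 → ρ ∈ Z := by
    intro ρ hρ
    rw [hZdef, Multiset.mem_toFinset, mem_roots hΛne, IsRoot, hΛeval]
    exact hρ
  have hZ' : ∀ ρ ∈ Z, quartic α β ρ = 0 := by
    intro ρ hρ
    rw [hZdef, Multiset.mem_toFinset, mem_roots hΛne, IsRoot, hΛeval] at hρ
    exact hρ
  -- Hensel data
  have hH : ∀ ρ : ℝ, ∃ p : ℝ[X], quartic α β ρ = 0 →
      (p.natDegree ≤ d ∧ p.eval 0 = ρ ∧ ∃ g : ℝ[X], quartic A B p = X ^ (d + 1) * g) := by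
    intro ρ
    by_cases hρ : quartic α β ρ = 0
    · obtain ⟨p, h1, h2, g, h3⟩ := hensel_poly A B ρ hρ
        (quarticDD_ne_zero_of_root α β ρ hdisc hρ) d
      exact ⟨p, fun _ => ⟨h1, h2, g, h3⟩⟩
    · exact ⟨0, fun h => absurd h hρ⟩
  choose p hp using hH
  -- local approximations, uniformised
  have hloc : ∃ δ : ℝ, 0 < δ ∧ ∃ s₀ : ℝ, 0 < s₀ ∧ ∃ C : ℝ, 0 ≤ C ∧ ∀ ρ ∈ Z,
      (∀ s ξ : ℝ, 0 < s → s ≤ s₀ → quartic (A.eval s) (B.eval s) ξ = 0 → |ξ - ρ| < δ →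
        |ξ - (p ρ).eval s| ≤ C * s ^ (d + 1)) := by
    refine exists_uniform Z (fun ρ δ s₀ C => ∀ s ξ : ℝ, 0 < s → s ≤ s₀ →
      quartic (A.eval s) (B.eval s) ξ = 0 → |ξ - ρ| < δ →
        |ξ - (p ρ).eval s| ≤ C * s ^ (d + 1)) ?_ ?_
    · intro ρ δ s₀ C δ' s₀' C' hP hδ hs hC s ξ hs0 hss hroot hξ
      refine (hP s ξ hs0 (hss.trans hs) hroot (hξ.trans_le hδ)).trans ?_
      exact mul_le_mul_of_nonneg_right hC (by positivity)
    · intro ρ hρ
      obtain ⟨-, h2, g, h3⟩ := hp ρ (hZ' ρ hρ)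
      exact exists_local_approx A B ρ (p ρ) g d h2 h3
        (quarticDD_ne_zero_of_root α β ρ hdisc (hZ' ρ hρ))
  obtain ⟨δ, hδ, s₀, hs₀, C, hC, hlocal⟩ := hloc
  obtain ⟨K, hK0, hK⟩ := exists_root_bound A B
  obtain ⟨C₁, hC₁0, hC₁⟩ := exists_close A B K
  have hΛc : Continuous fun ξ : ℝ => quartic α β ξ := by
    simp only [quartic]; fun_prop
  obtain ⟨c, hc, hsep⟩ := exists_separation (fun ξ => quartic α β ξ) hΛc Z hZ K δ hδ
  refine ⟨Z, p, C, min s₀ (min 1 (c / (2 * (C₁ + 1)))), hC, ?_, ?_, ?_, ?_⟩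
  · have : 0 < c / (2 * (C₁ + 1)) := by positivity
    exact lt_min hs₀ (lt_min one_pos this)
  · exact (min_le_right _ _).trans (min_le_left _ _)
  · intro ρ hρ
    exact (hp ρ (hZ' ρ hρ)).1
  · intro s ξ hs hs₁ hroot
    have hs0' : s ≤ s₀ := hs₁.trans (min_le_left _ _)
    have hs1 : s ≤ 1 := hs₁.trans ((min_le_right _ _).trans (min_le_left _ _))
    have hsc : s ≤ c / (2 * (C₁ + 1)) := hs₁.trans ((min_le_right _ _).trans (min_le_right _ _))
    have hsI : s ∈ Set.Icc (0 : ℝ) 1 := ⟨hs.le, hs1⟩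
    have hξK : |ξ| ≤ K := hK s hsI ξ hroot
    have hcl := hC₁ s hsI ξ hξK
    rw [hroot, zero_sub, abs_neg] at hcl
    have hlt : |quartic α β ξ| < c := by
      have h1 : C₁ * s ≤ C₁ * (c / (2 * (C₁ + 1))) := mul_le_mul_of_nonneg_left hsc hC₁0
      have h2 : C₁ * (c / (2 * (C₁ + 1))) < c := by
        rw [mul_div_assoc', div_lt_iff₀ (by positivity)]
        nlinarith
      linarith
    obtain ⟨ρ, hρZ, hρ⟩ := hsep ξ hξK hlt
    exact ⟨ρ, hρZ, hlocal ρ hρZ s ξ hs hs0' hroot hρ⟩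

end Fermat.Agent.S52.H712
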