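import Fermat.Agent.S52.H712.Approx

/-!
# S52 / (B3): approximation theorem for integer parameters `n → ∞`
-/

namespace Fermat.Agent.S52.H712

open Polynomial

/-- Weighted homogeneity of the quartic. -/
lemma quartic_scale {R : Type*} [CommRing R] (a b x l : R) :
    quartic (l ^ 2 * a) (l ^ 3 * b) (l * x) = l ^ 4 * quartic a b x := by
  unfold quartic; ring

/-- Evaluation of a reflected real polynomial at `t⁻¹`. -/
lemma eval_reflect_inv (f : ℝ[X]) (N : ℕ) (hf : f.natDegree ≤ N) (t : ℝ) (ht : t ≠ 0) :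
    (reflect N f).eval t⁻¹ * t ^ N = f.eval t := by
  let _ : Invertible t := invertibleOfNonzero ht
  have := eval₂_reflect_mul_pow (RingHom.id ℝ) t N f hf
  simpa [eval₂_id, invOf_eq_inv] using this

/-- **Approximation theorem**: for `a, b ∈ ℤ[X]` of degrees `≤ 2d, 3d` with nondegenerate
leading form, all real roots of `quartic a(n) b(n)` for large `n` are `C/n`-close to the value
at `n` of one of finitely many real polynomials of degree `≤ d`. -/
theorem approx_nat (d : ℕ) (a b : ℤ[X]) (ha : a.natDegree ≤ 2 * d) (hb : b.natDegree ≤ 3 * d)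
    (hdisc : 4 * (a.coeff (2 * d)) ^ 3 + 27 * (b.coeff (3 * d)) ^ 2 ≠ 0) :
    ∃ (Z : Finset ℝ) (Q : ℝ → ℝ[X]) (C : ℝ) (N₁ : ℕ), 0 ≤ C ∧ 0 < N₁ ∧
      (∀ ρ ∈ Z, (Q ρ).natDegree ≤ d) ∧
      ∀ n : ℕ, N₁ ≤ n → ∀ x : ℝ,
        quartic ((a.eval (n : ℤ) : ℤ) : ℝ) ((b.eval (n : ℤ) : ℤ) : ℝ) x = 0 →
          ∃ ρ ∈ Z, |x - (Q ρ).eval (n : ℝ)| ≤ C / n := by
  set aR : ℝ[X] := a.map (Int.castRingHom ℝ) with haR
  set bR : ℝ[X] := b.map (Int.castRingHom ℝ) with hbR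
  have haRdeg : aR.natDegree ≤ 2 * d := (natDegree_map_le).trans ha
  have hbRdeg : bR.natDegree ≤ 3 * d := (natDegree_map_le).trans hb
  set A : ℝ[X] := reflect (2 * d) aR with hA
  set B : ℝ[X] := reflect (3 * d) bR with hB
  have hA0 : A.eval 0 = (a.coeff (2 * d) : ℝ) := by
    rw [← coeff_zero_eq_eval_zero, hA, coeff_reflect, revAt_zero, haR, coeff_map]
    simp
  have hB0 : B.eval 0 = (b.coeff (3 * d) : ℝ) := by
    rw [← coeff_zero_eq_eval_zero, hB, coeff_reflect, revAt_zero, hbR, coeff_map]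
    simp
  have hdiscR : 4 * (A.eval 0) ^ 3 + 27 * (B.eval 0) ^ 2 ≠ 0 := by
    rw [hA0, hB0]
    exact_mod_cast hdisc
  obtain ⟨Z, p, C, s₁, hC, hs₁, hs₁1, hpdeg, happ⟩ := approx_s A B hdiscR d
  refine ⟨Z, fun ρ => reflect d (p ρ), C, ⌈1 / s₁⌉₊ + 1, hC, Nat.succ_pos _, ?_, ?_⟩
  · intro ρ hρ
    refine natDegree_reflect_le.trans ?_
    exact max_le le_rfl (hpdeg ρ hρ)
  · intro n hn x hx
    have hn1 : 1 ≤ n := le_trans (Nat.succ_le_succ (Nat.zero_le _)) hn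
    set t : ℝ := (n : ℝ) with ht
    have htpos : 0 < t := by
      rw [ht]; exact_mod_cast hn1
    have htne : t ≠ 0 := htpos.ne'
    have hs : 0 < t⁻¹ := inv_pos.mpr htpos
    have hss : t⁻¹ ≤ s₁ := by
      have h1 : 1 / s₁ ≤ t := by
        have := Nat.le_ceil (1 / s₁)
        have h2 : ((⌈1 / s₁⌉₊ + 1 : ℕ) : ℝ) ≤ t := by rw [ht]; exact_mod_cast hn
        push_cast at h2
        linarith
      rw [inv_le_comm₀ htpos hs₁]
      simpa [one_div] using h1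
    have haev : A.eval t⁻¹ * t ^ (2 * d) = ((a.eval (n : ℤ) : ℤ) : ℝ) := by
      rw [hA, eval_reflect_inv aR (2 * d) haRdeg t htne, haR, ht]
      simp
    have hbev : B.eval t⁻¹ * t ^ (3 * d) = ((b.eval (n : ℤ) : ℤ) : ℝ) := by
      rw [hB, eval_reflect_inv bR (3 * d) hbRdeg t htne, hbR, ht]
      simp
    -- scaled root
    set ξ : ℝ := x * (t⁻¹) ^ d with hξ
    have htd : (0 : ℝ) < t ^ d := pow_pos htpos d
    have hxξ : x = t ^ d * ξ := by
      rw [hξ, inv_pow]; field_simp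
    have hroot : quartic (A.eval t⁻¹) (B.eval t⁻¹) ξ = 0 := by
      have h1 : quartic ((t ^ d) ^ 2 * A.eval t⁻¹) ((t ^ d) ^ 3 * B.eval t⁻¹) (t ^ d * ξ) =
          (t ^ d) ^ 4 * quartic (A.eval t⁻¹) (B.eval t⁻¹) ξ := quartic_scale _ _ _ _
      have e2 : (t ^ d) ^ 2 * A.eval t⁻¹ = ((a.eval (n : ℤ) : ℤ) : ℝ) := by
        rw [← haev]; ring
      have e3 : (t ^ d) ^ 3 * B.eval t⁻¹ = ((b.eval (n : ℤ) : ℤ) : ℝ) := by
        rw [← hbev]; ring
      rw [e2, e3, ← hxξ, hx] at h1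
      have h4 : (t ^ d) ^ 4 ≠ 0 := by positivity
      exact (mul_eq_zero.mp h1.symm).resolve_left h4
    obtain ⟨ρ, hρZ, hρ⟩ := happ t⁻¹ ξ hs hss hroot
    refine ⟨ρ, hρZ, ?_⟩
    have hQ : (reflect d (p ρ)).eval t = (p ρ).eval t⁻¹ * t ^ d := by
      have hdeg : (reflect d (p ρ)).natDegree ≤ d :=
        natDegree_reflect_le.trans (max_le le_rfl (hpdeg ρ hρZ))
      have := eval_reflect_inv (reflect d (p ρ)) d hdeg t htne
      rw [reflect_reflect] at this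
      exact this.symm
    show |x - (reflect d (p ρ)).eval t| ≤ C / t
    rw [hQ, hxξ]
    have : t ^ d * ξ - (p ρ).eval t⁻¹ * t ^ d = t ^ d * (ξ - (p ρ).eval t⁻¹) := by ring
    rw [this, abs_mul, abs_of_pos htd]
    calc t ^ d * |ξ - (p ρ).eval t⁻¹| ≤ t ^ d * (C * t⁻¹ ^ (d + 1)) :=
          mul_le_mul_of_nonneg_left hρ htd.le
      _ = C / t := by
          rw [inv_pow]; field_simp; ring

end Fermat.Agent.S52.H712
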