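import Mathlib

/-!
# S52 / (B3): Hilbert irreducibility by hand — algebraic preliminaries

`quartic a b x = 3x⁴ + 6ax² + 12bx − a²` is the 3-division polynomial of `y² = x³ + ax + b`.
We prove: simple-root criterion and a Hensel-type polynomial approximation of the roots.
-/

namespace Fermat.Agent.S52.H712

open Polynomial

section Basic

variable {R : Type*} [CommRing R]

/-- The `ψ₃`-quartic `3x⁴ + 6ax² + 12bx − a²`. -/
def quartic (a b x : R) : R := 3 * x ^ 4 + 6 * a * x ^ 2 + 12 * b * x - a ^ 2

/-- The divided difference of `quartic a b` at `x, p`. -/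
def quarticDD (a b x p : R) : R :=
  3 * (x ^ 3 + x ^ 2 * p + x * p ^ 2 + p ^ 3) + 6 * a * (x + p) + 12 * b

lemma quartic_sub (a b x p : R) :
    quartic a b x - quartic a b p = (x - p) * quarticDD a b x p := by
  unfold quartic quarticDD; ring

lemma quartic_map {S : Type*} [CommRing S] (f : R →+* S) (a b x : R) :
    f (quartic a b x) = quartic (f a) (f b) (f x) := by
  simp only [quartic, map_sub, map_add, map_mul, map_pow, map_ofNat]

lemma quarticDD_map {S : Type*} [CommRing S] (f : R →+* S) (a b x p : R) :
    f (quarticDD a b x p) = quarticDD (f a) (f b) (f x) (f p) := by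
  simp only [quarticDD, map_add, map_mul, map_pow, map_ofNat]

end Basic

/-- A root of the quartic which is not simple forces the discriminant to vanish
(characteristic zero). -/
lemma disc_eq_zero_of_double_root {K : Type*} [Field K] [CharZero K] (α β ρ : K)
    (h0 : quartic α β ρ = 0) (h1 : quarticDD α β ρ ρ = 0) :
    4 * α ^ 3 + 27 * β ^ 2 = 0 := by
  unfold quartic at h0
  unfold quarticDD at h1
  have hf : (12 : K) * (ρ ^ 3 + α * ρ + β) = 0 := by linear_combination h1
  have hf0 : ρ ^ 3 + α * ρ + β = 0 := by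
    rcases mul_eq_zero.mp hf with h | h
    · exact absurd h (by norm_num)
    · exact h
  have hf' : (3 * ρ ^ 2 + α) ^ 2 = 0 := by linear_combination 12 * ρ * hf0 - h0
  have hα : 3 * ρ ^ 2 + α = 0 := by simpa using hf'
  have hα' : α = -3 * ρ ^ 2 := by linear_combination hα
  have hβ : β = 2 * ρ ^ 3 := by rw [hα'] at hf0; linear_combination hf0
  rw [hα', hβ]; ring

/-- Contrapositive form: nonzero discriminant ⇒ every root is simple. -/
lemma quarticDD_ne_zero_of_root {K : Type*} [Field K] [CharZero K] (α β ρ : K)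
    (hdisc : 4 * α ^ 3 + 27 * β ^ 2 ≠ 0) (h0 : quartic α β ρ = 0) :
    quarticDD α β ρ ρ ≠ 0 :=
  fun h1 => hdisc (disc_eq_zero_of_double_root α β ρ h0 h1)

section Hensel

variable {K : Type*} [Field K]

/-- Hensel-type lifting: a simple root `ρ` of the quartic at `X = 0` lifts to a polynomial `p`
of degree `≤ k` solving the quartic modulo `X^(k+1)`. -/
theorem hensel_poly (A B : K[X]) (ρ : K) (hρ : quartic (A.eval 0) (B.eval 0) ρ = 0)
    (hsimple : quarticDD (A.eval 0) (B.eval 0) ρ ρ ≠ 0) (k : ℕ) :
    ∃ p : K[X], p.natDegree ≤ k ∧ p.eval 0 = ρ ∧ X ^ (k + 1) ∣ quartic A B p := by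
  induction k with
  | zero =>
    refine ⟨C ρ, by simp, by simp, ?_⟩
    rw [zero_add, pow_one, X_dvd_iff, coeff_zero_eq_eval_zero]
    have := quartic_map (evalRingHom (0 : K)) A B (C ρ)
    simp only [coe_evalRingHom, eval_C] at this
    rw [this, hρ]
  | succ k ih =>
    obtain ⟨p, hdeg, hp0, g, hg⟩ := ih
    set c : K := -(g.eval 0) / quarticDD (A.eval 0) (B.eval 0) ρ ρ with hc
    refine ⟨p + C c * X ^ (k + 1), ?_, ?_, ?_⟩
    · refine (natDegree_add_le _ _).trans (max_le (hdeg.trans (Nat.le_succ k)) ?_)
      exact (natDegree_C_mul_X_pow_le c (k + 1))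
    · simp [hp0]
    · have hsub := quartic_sub A B (p + C c * X ^ (k + 1)) p
      have hq : quartic A B (p + C c * X ^ (k + 1)) =
          X ^ (k + 1) * (g + C c * quarticDD A B (p + C c * X ^ (k + 1)) p) := by
        have : quartic A B (p + C c * X ^ (k + 1)) =
            quartic A B p + (p + C c * X ^ (k + 1) - p) *
              quarticDD A B (p + C c * X ^ (k + 1)) p := by
          rw [← hsub]; ring
        rw [this, hg]; ring
      rw [hq, pow_succ (X : K[X]) (k + 1)]
      refine mul_dvd_mul_left _ ?_
      rw [X_dvd_iff, coeff_zero_eq_eval_zero]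
      have hDD := quarticDD_map (evalRingHom (0 : K)) A B (p + C c * X ^ (k + 1)) p
      simp only [coe_evalRingHom, eval_add, eval_mul, eval_C, eval_pow, eval_X, hp0] at hDD
      rw [eval_add, eval_mul, eval_C, hDD]
      simp only [ne_eq, Nat.add_eq_zero_iff, one_ne_zero, and_false, not_false_eq_true, zero_pow,
        mul_zero, add_zero]
      rw [hc]
      field_simp
      ring

end Hensel

end Fermat.Agent.S52.H712
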